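import Mathlib

/-!
# MR / A / RT : the trace lemma (TL)

`A` a PID with fraction field `K₀`, `F/K₀` finite separable, `D : F → F` a derivation with `D(A) ⊆ A`.
Then `Tr_{F/K₀}(a · D b) ∈ A` for all `a, b ∈ F` integral over `A`.

Proof (characteristic free, no different, no completions): in an `A`-basis `e` of the integral closure,
`M_{D b} = D(M_b) + Γ M_b - M_b Γ` (`Γ` = the connection matrix of `D`), hence
`Tr(a D b) = tr(M_a D(M_b)) + tr(Γ (M_b M_a - M_a M_b)) = tr(M_a D(M_b))`.
-/

set_option autoImplicit false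

namespace Fermat.Agent.MR.A

open Matrix

section MatrixForm

variable {K₀ F ι : Type*} [Field K₀] [Field F] [Algebra K₀ F] [Fintype ι] [DecidableEq ι]

/-- the matrix identity `M_{D b} = N + Γ M_b - M_b Γ`, if `D (m_ij e_i) = n_ij e_i + m_ij D e_i`. -/
theorem tl_leftMulMatrix_deriv (e : Module.Basis ι K₀ F) (D : F → F)
    (hadd : ∀ x y, D (x + y) = D x + D y) (hmul : ∀ x y, D (x * y) = D x * y + x * D y)
    (b : F) (N : Matrix ι ι K₀)
    (hN : ∀ i j, D (algebraMap K₀ F (Algebra.leftMulMatrix e b i j)) = algebraMap K₀ F (N i j)) :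
    Algebra.leftMulMatrix e (D b) =
      N + (Matrix.of fun i j => e.repr (D (e j)) i) * Algebra.leftMulMatrix e b -
        Algebra.leftMulMatrix e b * (Matrix.of fun i j => e.repr (D (e j)) i) := by
  classical
  set M := Algebra.leftMulMatrix e b with hM
  set Γ : Matrix ι ι K₀ := Matrix.of fun i j => e.repr (D (e j)) i with hΓ
  have hD0 : D 0 = 0 := by
    have := hadd 0 0
    rw [add_zero] at this
    exact left_eq_add.mp this
  have hsum : ∀ (s : Finset ι) (f : ι → F), D (∑ i ∈ s, f i) = ∑ i ∈ s, D (f i) := by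
    intro s f
    induction s using Finset.induction_on with
    | empty => simpa using hD0
    | insert a s ha ih => rw [Finset.sum_insert ha, Finset.sum_insert ha, hadd, ih]
  have hbe : ∀ j, b * e j = ∑ i, algebraMap K₀ F (M i j) * e i := by
    intro j
    conv_lhs => rw [← e.sum_repr (b * e j)]
    refine Finset.sum_congr rfl fun i _ => ?_
    rw [hM, Algebra.leftMulMatrix_eq_repr_mul, Algebra.smul_def]
  have hDe : ∀ j, D (e j) = ∑ i, algebraMap K₀ F (Γ i j) * e i := by
    intro j
    conv_lhs => rw [← e.sum_repr (D (e j))]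
    refine Finset.sum_congr rfl fun i _ => ?_
    rw [hΓ, Matrix.of_apply, Algebra.smul_def]
  -- the key computation
  have key : ∀ j, D b * e j = ∑ l, algebraMap K₀ F ((N + Γ * M - M * Γ) l j) * e l := by
    intro j
    have h1 : D (b * e j) = D b * e j + b * D (e j) := hmul _ _
    have h2 : D (b * e j) = ∑ i, (algebraMap K₀ F (N i j) * e i +
        algebraMap K₀ F (M i j) * D (e i)) := by
      rw [hbe j, hsum]
      refine Finset.sum_congr rfl fun i _ => ?_
      rw [hmul, hN]
    have h3 : b * D (e j) = ∑ l, algebraMap K₀ F ((M * Γ) l j) * e l := by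
      rw [hDe j, Finset.mul_sum]
      have : ∀ i, b * (algebraMap K₀ F (Γ i j) * e i) =
          ∑ l, algebraMap K₀ F (M l i * Γ i j) * e l := by
        intro i
        rw [mul_left_comm, hbe i, Finset.mul_sum]
        refine Finset.sum_congr rfl fun l _ => ?_
        rw [map_mul]; ring
      simp_rw [this]
      rw [Finset.sum_comm]
      refine Finset.sum_congr rfl fun l _ => ?_
      rw [Matrix.mul_apply, map_sum, Finset.sum_mul]
    have h4 : ∑ i, algebraMap K₀ F (M i j) * D (e i) =
        ∑ l, algebraMap K₀ F ((Γ * M) l j) * e l := by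
      have : ∀ i, algebraMap K₀ F (M i j) * D (e i) =
          ∑ l, algebraMap K₀ F (Γ l i * M i j) * e l := by
        intro i
        rw [hDe i, Finset.mul_sum]
        refine Finset.sum_congr rfl fun l _ => ?_
        rw [map_mul]; ring
      simp_rw [this]
      rw [Finset.sum_comm]
      refine Finset.sum_congr rfl fun l _ => ?_
      rw [Matrix.mul_apply, map_sum, Finset.sum_mul]
    have h5 : D b * e j = D (b * e j) - b * D (e j) := by rw [h1]; ring
    rw [h5, h2, Finset.sum_add_distrib, h4, h3, ← Finset.sum_add_distrib, ← Finset.sum_sub_distrib]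
    refine Finset.sum_congr rfl fun l _ => ?_
    rw [Matrix.sub_apply, Matrix.add_apply, map_sub, map_add]
    ring
  ext l j
  rw [Algebra.leftMulMatrix_eq_repr_mul, key j]
  simp only [← Algebra.smul_def]
  rw [e.repr_sum_self]

/-- `Tr(a D b) = tr(M_a N)`. -/
theorem tl_trace_eq (e : Module.Basis ι K₀ F) (D : F → F)
    (hadd : ∀ x y, D (x + y) = D x + D y) (hmul : ∀ x y, D (x * y) = D x * y + x * D y)
    (a b : F) (N : Matrix ι ι K₀)
    (hN : ∀ i j, D (algebraMap K₀ F (Algebra.leftMulMatrix e b i j)) = algebraMap K₀ F (N i j)) :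
    Algebra.trace K₀ F (a * D b) = Matrix.trace (Algebra.leftMulMatrix e a * N) := by
  rw [Algebra.trace_eq_matrix_trace e, map_mul,
    tl_leftMulMatrix_deriv e D hadd hmul b N hN]
  set Ma := Algebra.leftMulMatrix e a
  set Mb := Algebra.leftMulMatrix e b
  set Γ : Matrix ι ι K₀ := Matrix.of fun i j => e.repr (D (e j)) i
  have hcomm : Ma * Mb = Mb * Ma := by
    rw [← map_mul, ← map_mul, mul_comm]
  rw [Matrix.mul_sub, Matrix.mul_add, Matrix.trace_sub, Matrix.trace_add]
  have h1 : Matrix.trace (Ma * (Γ * Mb)) = Matrix.trace (Ma * (Mb * Γ)) := by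
    rw [← Matrix.mul_assoc, Matrix.trace_mul_comm, ← Matrix.mul_assoc, ← hcomm, ← Matrix.mul_assoc]
  rw [h1]; ring

end MatrixForm

/-- **TL.** -/
theorem trace_mul_deriv_mem {A K₀ F : Type*} [CommRing A] [IsDomain A] [IsPrincipalIdealRing A]
    [Field K₀] [Field F] [Algebra A K₀] [IsFractionRing A K₀] [Algebra K₀ F] [Algebra A F]
    [IsScalarTower A K₀ F] [FiniteDimensional K₀ F] [Algebra.IsSeparable K₀ F]
    (D : F → F) (hadd : ∀ x y, D (x + y) = D x + D y)
    (hmul : ∀ x y, D (x * y) = D x * y + x * D y)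
    (D₀ : A → A) (hD₀ : ∀ c : A, D (algebraMap A F c) = algebraMap A F (D₀ c))
    (a b : F) (ha : IsIntegral A a) (hb : IsIntegral A b) :
    ∃ c : A, Algebra.trace K₀ F (a * D b) = algebraMap A K₀ c := by
  classical
  have hinj : Function.Injective (algebraMap A F) := by
    rw [IsScalarTower.algebraMap_eq A K₀ F]
    exact (algebraMap K₀ F).injective.comp (IsFractionRing.injective A K₀)
  have : Module.IsTorsionFree A F := Module.IsTorsionFree.trans_faithfulSMul A K₀ F
  let B := integralClosure A F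
  have hfree : Module.Free A B := IsIntegralClosure.module_free A K₀ F B
  have hfin : Module.Finite A B := IsIntegralClosure.finite A K₀ F B
  have hloc : IsLocalization (Algebra.algebraMapSubmonoid B (nonZeroDivisors A)) F :=
    IsIntegralClosure.isLocalization A K₀ F B
  let bs := Module.Free.chooseBasis A B
  let e := bs.localizationLocalization K₀ (nonZeroDivisors A) F
  have hMa := Algebra.map_leftMulMatrix_localization (Rₘ := K₀) (Sₘ := F) A (nonZeroDivisors A) bs
    (⟨a, ha⟩ : B)
  have hMb := Algebra.map_leftMulMatrix_localization (Rₘ := K₀) (Sₘ := F) A (nonZeroDivisors A) bs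
    (⟨b, hb⟩ : B)
  have ea : algebraMap B F ⟨a, ha⟩ = a := rfl
  have eb : algebraMap B F ⟨b, hb⟩ = b := rfl
  rw [ea] at hMa
  rw [eb] at hMb
  have h := tl_trace_eq e D hadd hmul a b
    ((algebraMap A K₀).mapMatrix ((Algebra.leftMulMatrix bs (⟨b, hb⟩ : B)).map D₀)) (by
      intro i j
      rw [← hMb]
      simp only [RingHom.mapMatrix_apply, Matrix.map_apply]
      rw [← IsScalarTower.algebraMap_apply, hD₀, ← IsScalarTower.algebraMap_apply])
  refine ⟨Matrix.trace (Algebra.leftMulMatrix bs (⟨a, ha⟩ : B) *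
    (Algebra.leftMulMatrix bs (⟨b, hb⟩ : B)).map D₀), ?_⟩
  rw [h, ← hMa, ← map_mul, RingHom.mapMatrix_apply, ← AddMonoidHom.map_trace]

end Fermat.Agent.MR.A
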